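import Fermat.Agent.S18.WiringCore
import Fermat.Agent.RED.H17_LiftMove
import Fermat.Agent.RED.H95_IsFF
import Fermat.Agent.RED.H73_GAFinal
import Fermat.Agent.RED.Core2

/-!
# S18, final wiring (cluster G, part RED; helper17)

`s18_of_DR2_KD`: the frozen statement of S18 from the two packages

* `Stmt_DR2` : the Deuring reduction datum at the tame levels (`RED/Core2.lean`);
* `Stmt_KD`  : Kummer descent from level `M` to level `N ∣ M`, `M ∣ 36 N` (`RED/Core.lean`).

Everything else is proved: `TIcoreFor` at the tame levels is `H17.ticoreFor_of_hasDR` (route C),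
`ticoreFor_descend` goes down from `M = N, 2N, 3N` to `N`, `S18.s18_of_TIcore` is the wiring of
`S18/WiringCore.lean`, and the reduced field is a function field by helper73's GA.
-/

set_option autoImplicit false
set_option linter.style.haveILetI false
set_option synthInstance.maxHeartbeats 400000
set_option maxHeartbeats 200000

noncomputable section

open HahnSeries IntermediateField AlgebraicCurve ModularCurve
open Fermat.Agent.S28.H73 Fermat.Agent.RED.H73 Fermat.Agent.RED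

namespace Fermat.Agent.S18

theorem modularFunctionFieldFull_mono {N M : ℕ} (h : N ∣ M) :
    modularFunctionFieldFull N ≤ modularFunctionFieldFull M := by
  apply IntermediateField.adjoin.mono
  rintro x ⟨d, hd0, hd, hx⟩
  exact ⟨d, hd0, hd.trans h, hx⟩

theorem modularFunctionFieldBar_mono {N M : ℕ} (h : N ∣ M) :
    modularFunctionFieldBar N ≤ modularFunctionFieldBar M := by
  apply IntermediateField.adjoin.mono
  rintro _ ⟨x, hx, rfl⟩
  exact ⟨x, modularFunctionFieldFull_mono h hx, rfl⟩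

/-- The residue characteristic. -/
theorem natCast_kV_eq_zero {A : ValuationSubring (AlgebraicClosure ℚ)} {ℓ : ℕ}
    (hA : A.LiesOverPrime ℓ) : ((ℓ : ℕ) : kV A) = 0 := by
  obtain ⟨ha, hmem⟩ := ValuationSubring.mem_nonunits_iff_exists_mem_maximalIdeal.mp hA
  have h1 : IsLocalRing.residue ↥A ⟨(ℓ : AlgebraicClosure ℚ), ha⟩ = 0 :=
    (IsLocalRing.residue_eq_zero_iff _).mpr hmem
  have h2 : (⟨(ℓ : AlgebraicClosure ℚ), ha⟩ : ↥A) = ((ℓ : ℕ) : ↥A) := Subtype.ext (by simp)
  rw [h2, map_natCast] at h1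
  exact h1

/-- **Descent of `TIcore`**, abstract form: `F ⊆ F'` function fields in `C((q))`, `F'` integral
over `F`; if `m`-th roots in `F'` of elements of `F` with divisor divisible by `m` lie in `F`,
then `TIcore` for `F'` implies `TIcore` for `F`. -/
theorem ticoreFor_descend_abs {C : Type} [Field C] (O : ValuationSubring C)
    {F F' : IntermediateField C (LaurentSeries C)} (hle : F ≤ F') (h : HasScale O F)
    (h' : HasScale O F') (hint : (IntermediateField.inclusion hle).toRingHom.IsIntegral)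
    {ℓ : ℕ} (hTI' : TIcoreFor O h' ℓ)
    (hKD : ∀ m : ℕ, 0 < m → ∀ f : ↥F, (∀ P : Place C ↥F, (m : ℤ) ∣ P.ord f) →
      (∃ t : LaurentSeries C, t ∈ F' ∧ t ^ m = (f : LaurentSeries C)) → ∃ t : ↥F, t ^ m = f) :
    TIcoreFor O h ℓ := by
  intro m hm f hf1 hdiv
  have hm0 : 0 < m := Nat.pos_of_ne_zero (by rintro rfl; exact hm (dvd_zero ℓ))
  set φ : ↥F →ₐ[C] ↥F' := IntermediateField.inclusion hle with hφdef
  set f' : ↥F' := φ (f : ↥F) with hf'
  have hcoe : ((f' : ↥F') : LaurentSeries C) = ((f : ↥F) : LaurentSeries C) :=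
    IntermediateField.coe_inclusion hle (f : ↥F)
  have hfV : ((f : ↥F) : LaurentSeries C) ∈ gaussRingV O := (mem_gaussValSub_iff O h _).mp f.2
  have hf'V : f' ∈ gaussValSub O F' h' := by
    rw [mem_gaussValSub_iff, hcoe]
    exact hfV
  have hres : gaussResF' O h' ⟨f', hf'V⟩ = 1 := by
    apply Subtype.ext
    have e1 : gaussResF O h f = 1 := congrArg Subtype.val hf1
    rw [gaussResF_apply] at e1
    show gaussResF O h' ⟨f', hf'V⟩ = 1
    rw [gaussResF_apply, ← e1]
    congr 1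
  have hdiv' : ∀ P' : Place C ↥F', (m : ℤ) ∣ P'.ord f' := by
    intro P'
    letI := algebraAlong φ
    haveI := isScalarTower_along φ
    haveI := isIntegral_along φ hint
    have h1 := P'.ord_restrict (F := ↥F) (f : ↥F)
    have h2 : f' = algebraMap ↥F ↥F' (f : ↥F) := rfl
    rw [h2, h1]
    exact Dvd.dvd.mul_left (hdiv _) _
  obtain ⟨t, ht⟩ := hTI' m hm ⟨f', hf'V⟩ hres hdiv'
  refine hKD m hm0 (f : ↥F) hdiv ⟨(t : LaurentSeries C), t.2, ?_⟩
  have := congrArg Subtype.val ht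
  rw [← hcoe]
  exact this

/-- **Descent of `TIcore`** from level `M` to level `N ∣ M`, `M ∣ 36 N`, by Kummer descent. -/
theorem ticoreFor_descend (hKD : Stmt_KD) (A : ValuationSubring (AlgebraicClosure ℚ))
    {N M : ℕ} [NeZero N] [NeZero M] (hNM : N ∣ M) (hM36 : M ∣ 36 * N) {ℓ : ℕ}
    (hM : TIcoreFor A (hasScale_laurentBaseChange A M) ℓ) :
    TIcoreFor A (hasScale_laurentBaseChange A N) ℓ :=
  ticoreFor_descend_abs A (modularFunctionFieldBar_mono hNM) (hasScale_laurentBaseChange A N)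
    (hasScale_laurentBaseChange A M)
    (H51.stmt_FFB_finite _ _ _ (H95.stmt_HKA_isFF N) (H95.stmt_HKA_isFF M) _).1 hM
    (fun m hm0 f hdiv ht => hKD N M m hNM hM36 hm0 f hdiv ht)

/-- **`TIcore` at every level** from the Deuring datum at the tame levels and Kummer descent. -/
theorem stmt_TIcore_of (hDR2 : Stmt_DR2) (hKD : Stmt_KD) : Stmt_TIcore := by
  intro N ℓ _ hℓ hℓN A hA
  haveI : IsAlgClosed (kV A) := isAlgClosed_kV A
  have hℓ0 := natCast_kV_eq_zero hA
  -- `TIcore` at a tame level `M`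
  have tame : ∀ (M : ℕ) [NeZero M], ¬ ℓ ∣ M → (5 ≤ ℓ ∨ (ℓ = 3 ∧ 2 ∣ M) ∨ (ℓ = 2 ∧ 3 ∣ M)) →
      TIcoreFor A (hasScale_laurentBaseChange A M) ℓ := fun M _ hℓM hcase =>
    H17.ticoreFor_of_hasDR A (hasScale_laurentBaseChange A M) hℓ hℓ0 (H95.stmt_HKA_isFF M)
      (hDR2 M ℓ hℓ hℓM hcase A hA)
  by_cases h5 : 5 ≤ ℓ
  · exact tame N hℓN (Or.inl h5)
  have hℓ2 : 2 ≤ ℓ := hℓ.two_le
  have h23 : ℓ = 2 ∨ ℓ = 3 ∨ ℓ = 4 := by omega
  have hN0 : N ≠ 0 := NeZero.ne N
  rcases h23 with rfl | rfl | rfl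
  · -- `ℓ = 2`, `M = 3 N`
    haveI : NeZero (3 * N) := ⟨Nat.mul_ne_zero (by norm_num) hN0⟩
    have h1 : ¬ 2 ∣ 3 * N := by
      intro h
      rcases (Nat.Prime.dvd_mul Nat.prime_two).mp h with h | h
      · omega
      · exact hℓN h
    exact ticoreFor_descend hKD A (Dvd.intro_left 3 rfl) (Nat.mul_dvd_mul_right (by norm_num) N)
      (tame (3 * N) h1 (Or.inr (Or.inr ⟨rfl, Dvd.intro N rfl⟩)))
  · -- `ℓ = 3`, `M = 2 N`
    haveI : NeZero (2 * N) := ⟨Nat.mul_ne_zero (by norm_num) hN0⟩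
    have h1 : ¬ 3 ∣ 2 * N := by
      intro h
      rcases (Nat.Prime.dvd_mul Nat.prime_three).mp h with h | h
      · omega
      · exact hℓN h
    exact ticoreFor_descend hKD A (Dvd.intro_left 2 rfl) (Nat.mul_dvd_mul_right (by norm_num) N)
      (tame (2 * N) h1 (Or.inr (Or.inl ⟨rfl, Dvd.intro N rfl⟩)))
  · exact absurd hℓ (by decide)

/-- A function without zeros and poles on the reduced field is constant. -/
theorem const_of_ord_eq_zero (N : ℕ) [NeZero N] {ℓ : ℕ} (hℓ : ℓ.Prime) (hℓN : ¬ ℓ ∣ N)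
    (A : ValuationSubring (AlgebraicClosure ℚ)) (hA : A.LiesOverPrime ℓ)
    (g : ↥(modularFunctionFieldFullC (kV A) N))
    (hg : ∀ Q : Place (kV A) ↥(modularFunctionFieldFullC (kV A) N), Q.ord g = 0) :
    ∃ c : kV A, g = algebraMap (kV A) ↥(modularFunctionFieldFullC (kV A) N) c := by
  haveI : IsAlgClosed (kV A) := isAlgClosed_kV A
  have hFF : IsFF (kV A) ↥(modularFunctionFieldFullC (kV A) N) := by
    have h1 := isFF_redField_bar N ℓ hℓ hℓN A hA
    have h2 := stmt_GA N ℓ hℓ hℓN A hA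
    rw [h2] at h1
    exact h1
  exact (H17.ffHyp_of_isFF _ _ hFF).const_of_regular fun Q => le_of_eq (hg Q).symm

/-- **S18** from the packages DR2 and KD. -/
theorem s18_of_DR2_KD (hDR2 : Stmt_DR2) (hKD : Stmt_KD) (N : ℕ) [NeZero N] {ℓ : ℕ}
    [Fact ℓ.Prime] (hℓN : ¬ ℓ ∣ N) (A : ValuationSubring (AlgebraicClosure ℚ))
    (hA : A.LiesOverPrime ℓ) (h : ModularCurve.ReductionInputsModL A N) (m : ℕ) (hm : ¬ ℓ ∣ m)
    (z : ModularCurve.JZero N) (hmz : m • z = 0) (hz : ModularCurve.reductionModL A N z = 0) :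
    z = 0 :=
  s18_of_TIcore N hℓN A hA (stmt_TIcore_of hDR2 hKD N ℓ Fact.out hℓN A hA)
    (fun g _ hg => const_of_ord_eq_zero N Fact.out hℓN A hA g hg) h m hm z hmz hz

end Fermat.Agent.S18
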