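import Fermat.Agent.RED.Core
import Fermat.Agent.RED.H73_GARes
import Fermat.Prelude.Def_EllipticCurve_FrobeniusTrace

/-!
# S18 wiring, version 2 (cluster G, part RED; helper17): S18 from `TIcoreFor`

`s18_of_TIcore`: the frozen statement of S18, with two extra hypotheses:

* `hTI : TIcoreFor A (hasScale_laurentBaseChange A N) ℓ` (Kummer form of torsion injectivity,
  `Fermat/Agent/RED/Core.lean`);
* `hconst`: a non-zero element of `k(j(q^d) : d ∣ N)` without zeros and poles is constant.

No place reduction has to be constructed: the one hidden in `reductionModL` is used only through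
its divisor identity.
-/

set_option autoImplicit false
set_option synthInstance.maxHeartbeats 400000
set_option maxHeartbeats 1000000

noncomputable section

open HahnSeries IntermediateField AlgebraicCurve ModularCurve
open Fermat.Agent.S28.H73 Fermat.Agent.RED.H73 Fermat.Agent.RED

namespace Fermat.Agent.S18

variable (A : ValuationSubring (AlgebraicClosure ℚ)) (N : ℕ)

/-- The Gauss valuation ring of `F_N · ℚ̄`. -/
abbrev VN : ValuationSubring ↥(modularFunctionFieldBar N) :=
  gaussValSub A (modularFunctionFieldBar N) (hasScale_laurentBaseChange A N)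

/-- A divisor of `F_N · ℚ̄` is *good* if it is the divisor of a Gauss unit whose reduction lies in
`k(j(q^d))` and the place reduction `r` maps it to the divisor of the reduction. -/
def GoodDiv (r : Place (AlgebraicClosure ℚ) (modularFunctionFieldBar N) →
      Place (kV A) (modularFunctionFieldFullC (kV A) N))
    (E : Divisor (AlgebraicClosure ℚ) (modularFunctionFieldBar N)) : Prop :=
  ∃ (x : ↥(VN A N)) (xb : ↥(modularFunctionFieldFullC (kV A) N)),
    IsUnit x ∧ gaussResF A (hasScale_laurentBaseChange A N) x = (xb : LaurentSeries (kV A)) ∧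
    (∀ P, E P = P.ord (x : ↥(modularFunctionFieldBar N))) ∧
    (∀ Q, Finsupp.mapDomain r E Q = Q.ord xb)

variable {A N}

theorem GoodDiv.xb_ne_zero {x : ↥(VN A N)} {xb : ↥(modularFunctionFieldFullC (kV A) N)}
    (hu : IsUnit x)
    (hx : gaussResF A (hasScale_laurentBaseChange A N) x = (xb : LaurentSeries (kV A))) :
    xb ≠ 0 := by
  intro h0
  have := (isUnit_iff_gaussResF_ne_zero A (hasScale_laurentBaseChange A N) x).1 hu
  apply this
  rw [hx, h0]
  rfl

theorem unit_coe_ne_zero {x : ↥(VN A N)} (hu : IsUnit x) :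
    (x : ↥(modularFunctionFieldBar N)) ≠ 0 := by
  intro h0
  have : x = 0 := Subtype.ext h0
  rw [this] at hu
  exact not_isUnit_zero hu

theorem goodDiv_of_integral
    {r : Place (AlgebraicClosure ℚ) (modularFunctionFieldBar N) →
      Place (kV A) (modularFunctionFieldFullC (kV A) N)}
    (hr : IsPlaceReductionModL A N r)
    {E : Divisor (AlgebraicClosure ℚ) (modularFunctionFieldBar N)}
    (hE : E ∈ integralPrincipalDivisors A (IsLocalRing.residue A) N) : GoodDiv A N r E := by
  obtain ⟨y, hy, hyk, hne, hEy⟩ := hE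
  have hmem : (⟨coeffMap A.subtype y, hy⟩ : ↥(modularFunctionFieldBar N)) ∈ VN A N :=
    iotaV_mem_gaussRingV A y
  have hres : gaussResF A (hasScale_laurentBaseChange A N) ⟨⟨coeffMap A.subtype y, hy⟩, hmem⟩
      = coeffMap (IsLocalRing.residue A) y := by
    rw [gaussResF_apply]
    exact gaussRedV_iotaV A y
  refine ⟨⟨⟨coeffMap A.subtype y, hy⟩, hmem⟩, ⟨coeffMap (IsLocalRing.residue A) y, hyk⟩, ?_,
    hres, hEy, fun Q => hr.2 y hy hyk hne E hEy Q⟩
  rw [isUnit_iff_gaussResF_ne_zero, hres]
  exact hne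

theorem goodDiv_zero
    (r : Place (AlgebraicClosure ℚ) (modularFunctionFieldBar N) →
      Place (kV A) (modularFunctionFieldFullC (kV A) N)) : GoodDiv A N r 0 := by
  refine ⟨1, 1, isUnit_one, ?_, fun P => ?_, fun Q => ?_⟩
  · rw [map_one]; rfl
  · simp
  · rw [Finsupp.mapDomain_zero]; simp

theorem GoodDiv.add
    {r : Place (AlgebraicClosure ℚ) (modularFunctionFieldBar N) →
      Place (kV A) (modularFunctionFieldFullC (kV A) N)}
    {E E' : Divisor (AlgebraicClosure ℚ) (modularFunctionFieldBar N)}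
    (h : GoodDiv A N r E) (h' : GoodDiv A N r E') : GoodDiv A N r (E + E') := by
  obtain ⟨x, xb, hu, hx, hE, hQ⟩ := h
  obtain ⟨x', xb', hu', hx', hE', hQ'⟩ := h'
  refine ⟨x * x', xb * xb', hu.mul hu', ?_, fun P => ?_, fun Q => ?_⟩
  · rw [map_mul, hx, hx']; rfl
  · rw [Finsupp.add_apply, hE, hE']
    exact (P.ord_mul (unit_coe_ne_zero hu) (unit_coe_ne_zero hu')).symm
  · rw [Finsupp.mapDomain_add, Finsupp.add_apply, hQ, hQ']
    exact (Q.ord_mul (GoodDiv.xb_ne_zero hu hx) (GoodDiv.xb_ne_zero hu' hx')).symm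

theorem GoodDiv.neg
    {r : Place (AlgebraicClosure ℚ) (modularFunctionFieldBar N) →
      Place (kV A) (modularFunctionFieldFullC (kV A) N)}
    {E : Divisor (AlgebraicClosure ℚ) (modularFunctionFieldBar N)}
    (h : GoodDiv A N r E) : GoodDiv A N r (-E) := by
  obtain ⟨x, xb, hu, hx, hE, hQ⟩ := h
  have hxb := GoodDiv.xb_ne_zero hu hx
  have hcoe : (((hu.unit⁻¹ : (↥(VN A N))ˣ) : ↥(VN A N)) : ↥(modularFunctionFieldBar N))
      = (x : ↥(modularFunctionFieldBar N))⁻¹ := by
    have h1 : x * ((hu.unit⁻¹ : (↥(VN A N))ˣ) : ↥(VN A N)) = 1 := by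
      have := hu.unit.mul_inv
      rwa [IsUnit.unit_spec] at this
    have h2 : (x : ↥(modularFunctionFieldBar N))
        * (((hu.unit⁻¹ : (↥(VN A N))ˣ) : ↥(VN A N)) : ↥(modularFunctionFieldBar N)) = 1 :=
      congrArg Subtype.val h1
    exact eq_inv_of_mul_eq_one_right h2
  refine ⟨((hu.unit⁻¹ : (↥(VN A N))ˣ) : ↥(VN A N)), xb⁻¹, (hu.unit⁻¹).isUnit, ?_, fun P => ?_,
    fun Q => ?_⟩
  · have h1 : gaussResF A (hasScale_laurentBaseChange A N) x
        * gaussResF A (hasScale_laurentBaseChange A N)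
          ((hu.unit⁻¹ : (↥(VN A N))ˣ) : ↥(VN A N)) = 1 := by
      rw [← map_mul]
      have : x * ((hu.unit⁻¹ : (↥(VN A N))ˣ) : ↥(VN A N)) = 1 := by
        have := hu.unit.mul_inv
        rwa [IsUnit.unit_spec] at this
      rw [this, map_one]
    rw [eq_inv_of_mul_eq_one_right h1, hx]
    rfl
  · rw [Finsupp.neg_apply, hE, hcoe, P.ord_inv]
  · rw [← Finsupp.mapDomain.addMonoidHom_apply, map_neg, Finsupp.mapDomain.addMonoidHom_apply,
      Finsupp.neg_apply, hQ, Q.ord_inv]

theorem goodDiv_of_mem_principal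
    {r : Place (AlgebraicClosure ℚ) (modularFunctionFieldBar N) →
      Place (kV A) (modularFunctionFieldFullC (kV A) N)}
    (hr : IsPlaceReductionModL A N r)
    (hgen : PrincipalGeneratedByIntegral A (IsLocalRing.residue A) N)
    {E : Divisor (AlgebraicClosure ℚ) (modularFunctionFieldBar N)}
    (hE : E ∈ Divisor.principal (K := AlgebraicClosure ℚ) (F := modularFunctionFieldBar N)) :
    GoodDiv A N r E := by
  have hE' := hgen hE
  clear hE
  induction hE' using AddSubgroup.closure_induction with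
  | mem E hE => exact goodDiv_of_integral hr hE
  | zero => exact goodDiv_zero r
  | add E E' _ _ hE hE' => exact hE.add hE'
  | neg E _ hE => exact hE.neg

/-- Every element of `k(j(q^d) : d ∣ N)` is the reduction of an element of the Gauss valuation
ring of `F_N · ℚ̄`. -/
theorem exists_lift (hb : ↥(modularFunctionFieldFullC (kV A) N)) :
    ∃ H : ↥(VN A N),
      gaussResF A (hasScale_laurentBaseChange A N) H = (hb : LaurentSeries (kV A)) := by
  obtain ⟨X, hX⟩ := fullC_le_redField A N hb.2
  have hXF : ((X : ↥(modularFunctionFieldFullC (AlgebraicClosure ℚ) N)) :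
      LaurentSeries (AlgebraicClosure ℚ)) ∈ modularFunctionFieldBar N := by
    show _ ∈ laurentBaseChange (AlgebraicClosure ℚ) (modularFunctionFieldFull N)
    rw [laurentBaseChange_full_eq]
    exact Subtype.mem _
  have hXV : (⟨_, hXF⟩ : ↥(modularFunctionFieldBar N)) ∈ VN A N := X.2
  exact ⟨⟨⟨_, hXF⟩, hXV⟩, hX⟩

/-- **S18 from TIcore** (the frozen statement of S18 with `TIcoreFor` and the constancy of
functions without zeros and poles on the reduced field as extra hypotheses). -/
theorem s18_of_TIcore (N : ℕ) [NeZero N] {ℓ : ℕ} [Fact ℓ.Prime] (_hℓN : ¬ ℓ ∣ N)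
    (A : ValuationSubring (AlgebraicClosure ℚ)) (_hA : A.LiesOverPrime ℓ)
    (hTI : TIcoreFor A (hasScale_laurentBaseChange A N) ℓ)
    (hconst : ∀ g : ↥(modularFunctionFieldFullC (kV A) N), g ≠ 0 →
      (∀ Q : Place (kV A) ↥(modularFunctionFieldFullC (kV A) N), Q.ord g = 0) →
      ∃ c : kV A, g = algebraMap (kV A) ↥(modularFunctionFieldFullC (kV A) N) c)
    (h : ModularCurve.ReductionInputsModL A N) (m : ℕ) (hm : ¬ ℓ ∣ m) (z : ModularCurve.JZero N)
    (hmz : m • z = 0) (hz : ModularCurve.reductionModL A N z = 0) :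
    z = 0 := by
  obtain ⟨D, rfl⟩ := Pic0.mk_surjective z
  have hm0 : m ≠ 0 := by
    rintro rfl
    exact hm (dvd_zero ℓ)
  have hmZ : (m : ℤ) ≠ 0 := by exact_mod_cast hm0
  -- `m D` is principal
  have hmD : m • (D : Divisor (AlgebraicClosure ℚ) (modularFunctionFieldBar N)) ∈
      Divisor.principal (K := AlgebraicClosure ℚ) (F := modularFunctionFieldBar N) := by
    have h1 : ((m • D : Divisor.degZero (K := AlgebraicClosure ℚ)
        (F := modularFunctionFieldBar N)) : Pic0 (AlgebraicClosure ℚ) (modularFunctionFieldBar N))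
        = 0 := hmz
    rw [QuotientAddGroup.eq_zero_iff, AddSubgroup.mem_addSubgroupOf] at h1
    exact h1
  -- the reduction of `D` is principal
  have hrD : Finsupp.mapDomain (placeReductionModL h)
      (D : Divisor (AlgebraicClosure ℚ) (modularFunctionFieldBar N)) ∈
      Divisor.principal (K := IsLocalRing.ResidueField A)
        (F := modularFunctionFieldFullC (IsLocalRing.ResidueField A) N) := by
    rw [reductionModL_mk h D] at hz
    have h1 := (QuotientAddGroup.eq_zero_iff _).mp hz
    rw [AddSubgroup.mem_addSubgroupOf] at h1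
    exact h1
  -- (1) `m D = div x`, `x` a Gauss unit with reduction `xb`, and `r_* (m D) = div xb`
  obtain ⟨x, xb, hu, hx, hE, hQ⟩ :=
    goodDiv_of_mem_principal (isPlaceReductionModL_placeReductionModL h) h.choose_spec.2 hmD
  have hxb := GoodDiv.xb_ne_zero hu hx
  -- (2) `r_* D = div hb`, hence `xb / hb ^ m` is a constant `cb`
  obtain ⟨hb, hb0, hhb⟩ := hrD
  have hord : ∀ Q : Place (kV A) ↥(modularFunctionFieldFullC (kV A) N),
      Q.ord (xb / hb ^ m) = 0 := by
    intro Q
    have h1 : Q.ord xb = m * Q.ord hb := by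
      rw [← hQ, ← hhb, ← Finsupp.mapDomain.addMonoidHom_apply, map_nsmul,
        Finsupp.mapDomain.addMonoidHom_apply, Finsupp.smul_apply, nsmul_eq_mul]
    have h2 : Q.ord (hb ^ m) = m * Q.ord hb := by
      have := Q.ord_zpow hb m
      rwa [zpow_natCast] at this
    rw [div_eq_mul_inv, Q.ord_mul hxb (inv_ne_zero (pow_ne_zero _ hb0)), Q.ord_inv, h1, h2]
    ring
  obtain ⟨cb, hcb⟩ := hconst (xb / hb ^ m) (div_ne_zero hxb (pow_ne_zero _ hb0)) hord
  have hcb0 : cb ≠ 0 := by
    rintro rfl
    rw [map_zero] at hcb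
    exact div_ne_zero hxb (pow_ne_zero _ hb0) hcb
  -- (3) lifts of `hb` and `cb`
  obtain ⟨H, hH⟩ := exists_lift (A := A) (N := N) hb
  have hHu : IsUnit H := by
    rw [isUnit_iff_gaussResF_ne_zero, hH]
    exact fun h0 => hb0 (Subtype.ext h0)
  obtain ⟨c₀, hc₀⟩ := IsLocalRing.residue_surjective (R := ↥A) cb
  have hc₀m : algebraMap (AlgebraicClosure ℚ) ↥(modularFunctionFieldBar N) (c₀ : AlgebraicClosure ℚ)
      ∈ VN A N :=
    (algebraMap_mem_gaussValSub_iff A (hasScale_laurentBaseChange A N) _).2 c₀.2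
  have hc₀r : gaussResF A (hasScale_laurentBaseChange A N) ⟨_, hc₀m⟩ = HahnSeries.C cb := by
    rw [gaussResF_algebraMap, ← hc₀]
  have hCcb : (HahnSeries.C cb : LaurentSeries (kV A)) ≠ 0 := by
    intro h0
    apply hcb0
    have := congrArg (fun s : LaurentSeries (kV A) => s.coeff 0) h0
    simpa using this
  have hc₀u : IsUnit (⟨_, hc₀m⟩ : ↥(VN A N)) := by
    rw [isUnit_iff_gaussResF_ne_zero, hc₀r]
    exact hCcb
  -- (4) the normalised function `f' = x / (c₀ H ^ m)`
  set y : ↥(VN A N) := ⟨_, hc₀m⟩ * H ^ m with hy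
  have hyu : IsUnit y := hc₀u.mul (hHu.pow m)
  set f' : ↥(VN A N) := x * ((hyu.unit⁻¹ : (↥(VN A N))ˣ) : ↥(VN A N)) with hf'
  have hyinv : y * ((hyu.unit⁻¹ : (↥(VN A N))ˣ) : ↥(VN A N)) = 1 := by
    have := hyu.unit.mul_inv
    rwa [IsUnit.unit_spec] at this
  have hf'y : f' * y = x := by
    rw [hf', mul_assoc, mul_comm _ y, hyinv, mul_one]
  have hres_y : gaussResF A (hasScale_laurentBaseChange A N) y
      = HahnSeries.C cb * (hb : LaurentSeries (kV A)) ^ m := by
    rw [hy, map_mul, map_pow, hc₀r, hH]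
  have hxb_eq : (xb : LaurentSeries (kV A)) = HahnSeries.C cb * (hb : LaurentSeries (kV A)) ^ m := by
    have h1 : xb = algebraMap (kV A) ↥(modularFunctionFieldFullC (kV A) N) cb * hb ^ m := by
      rw [← hcb, div_mul_cancel₀ _ (pow_ne_zero _ hb0)]
    have h2 := congrArg (Subtype.val : ↥(modularFunctionFieldFullC (kV A) N) →
      LaurentSeries (kV A)) h1
    rw [h2]
    show (algebraMap (kV A) (LaurentSeries (kV A)) cb) * (hb : LaurentSeries (kV A)) ^ m = _
    rw [algebraMap_laurentSeries_eq_single]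
    rfl
  have hres_f' : gaussResF A (hasScale_laurentBaseChange A N) f' = 1 := by
    have h1 : gaussResF A (hasScale_laurentBaseChange A N) f'
        * gaussResF A (hasScale_laurentBaseChange A N) y
        = gaussResF A (hasScale_laurentBaseChange A N) y := by
      rw [← map_mul, hf'y, hx, hxb_eq, hres_y]
    have hy0 : gaussResF A (hasScale_laurentBaseChange A N) y ≠ 0 :=
      (isUnit_iff_gaussResF_ne_zero A (hasScale_laurentBaseChange A N) y).1 hyu
    exact mul_right_cancel₀ hy0 (h1.trans (one_mul _).symm)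
  have hres_f'' : gaussResF' A (hasScale_laurentBaseChange A N) f' = 1 := Subtype.ext hres_f'
  have hf'u : IsUnit f' := by
    rw [isUnit_iff_gaussResF_ne_zero, hres_f']
    exact one_ne_zero
  -- orders of `f'`
  have hordf : ∀ P : Place (AlgebraicClosure ℚ) ↥(modularFunctionFieldBar N),
      P.ord (f' : ↥(modularFunctionFieldBar N))
        = m * ((D : Divisor (AlgebraicClosure ℚ) (modularFunctionFieldBar N)) P
          - P.ord (H : ↥(modularFunctionFieldBar N))) := by
    intro P
    have h1 : (f' : ↥(modularFunctionFieldBar N)) * (y : ↥(modularFunctionFieldBar N))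
        = (x : ↥(modularFunctionFieldBar N)) := congrArg Subtype.val hf'y
    have h2 := P.ord_mul (unit_coe_ne_zero hf'u) (unit_coe_ne_zero hyu)
    rw [h1, ← hE, Finsupp.smul_apply, nsmul_eq_mul] at h2
    have h3 : (y : ↥(modularFunctionFieldBar N))
        = algebraMap (AlgebraicClosure ℚ) ↥(modularFunctionFieldBar N) (c₀ : AlgebraicClosure ℚ)
          * (H : ↥(modularFunctionFieldBar N)) ^ m := rfl
    have hc₀0 : algebraMap (AlgebraicClosure ℚ) ↥(modularFunctionFieldBar N)
        (c₀ : AlgebraicClosure ℚ) ≠ 0 := unit_coe_ne_zero hc₀u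
    have h4 : P.ord (y : ↥(modularFunctionFieldBar N))
        = m * P.ord (H : ↥(modularFunctionFieldBar N)) := by
      rw [h3, P.ord_mul hc₀0 (pow_ne_zero _ (unit_coe_ne_zero hHu))]
      have h5 := P.ord_zpow (H : ↥(modularFunctionFieldBar N)) m
      rw [zpow_natCast] at h5
      rw [h5]
      have h6 : P.ord (algebraMap (AlgebraicClosure ℚ) ↥(modularFunctionFieldBar N)
          (c₀ : AlgebraicClosure ℚ)) = 0 := by
        have hc₀inv : (algebraMap (AlgebraicClosure ℚ) ↥(modularFunctionFieldBar N)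
            (c₀ : AlgebraicClosure ℚ))⁻¹ = algebraMap (AlgebraicClosure ℚ)
            ↥(modularFunctionFieldBar N) (c₀ : AlgebraicClosure ℚ)⁻¹ := (map_inv₀ _ _).symm
        have hle1 := P.adicValuation_algebraMap_le_one (c₀ : AlgebraicClosure ℚ)
        have hle2 := P.adicValuation_algebraMap_le_one (c₀ : AlgebraicClosure ℚ)⁻¹
        rw [← hc₀inv, map_inv₀] at hle2
        have hne := P.adicValuation_ne_zero hc₀0
        have hge : 1 ≤ P.adicValuation (algebraMap (AlgebraicClosure ℚ)
            ↥(modularFunctionFieldBar N) (c₀ : AlgebraicClosure ℚ)) := by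
          by_contra hlt
          rw [not_le] at hlt
          have := (one_lt_inv₀ (zero_lt_iff.mpr hne)).mpr hlt
          exact absurd hle2 (not_le.mpr this)
        have heq := le_antisymm hle1 hge
        simp [Place.ord, heq]
      rw [h6, zero_add]
    rw [h4] at h2
    linear_combination -h2
  -- (5) TIcore
  obtain ⟨t, ht⟩ := hTI m hm f' hres_f'' (fun P => ⟨_, hordf P⟩)
  have ht0 : t ≠ 0 := by
    rintro rfl
    rw [zero_pow hm0] at ht
    exact unit_coe_ne_zero hf'u ht.symm
  have hDprin : (D : Divisor (AlgebraicClosure ℚ) (modularFunctionFieldBar N)) ∈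
      Divisor.principal (K := AlgebraicClosure ℚ) (F := modularFunctionFieldBar N) := by
    refine ⟨t * (H : ↥(modularFunctionFieldBar N)), mul_ne_zero ht0 (unit_coe_ne_zero hHu),
      fun P => ?_⟩
    rw [P.ord_mul ht0 (unit_coe_ne_zero hHu)]
    have h1 := P.ord_zpow t m
    rw [zpow_natCast, ht, hordf P] at h1
    have h2 : (D : Divisor (AlgebraicClosure ℚ) (modularFunctionFieldBar N)) P
        - P.ord (H : ↥(modularFunctionFieldBar N)) = P.ord t :=
      mul_left_cancel₀ hmZ h1
    linarith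
  exact (QuotientAddGroup.eq_zero_iff _).mpr (AddSubgroup.mem_addSubgroupOf.mpr hDprin)

end Fermat.Agent.S18
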