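import Fermat.Prelude.Def_ModularCurve_ReductionModL
import Fermat.Prelude.Def_EllipticCurve_FrobeniusTrace

/-!
# S18 wiring (cluster G, part RED; helper17)

`S18` (prime-to-`ℓ` torsion of `J₀(N)` injects under `reductionModL`) is reduced, sorry-free, to
the statement `Stmt_TI`: *some* place reduction `r₀` (a map on places with the divisor identity
`r₀_* (div y) = div (y mod ℓ)` for integral `y` with non-zero reduction) is injective on
prime-to-`ℓ` torsion divisor classes.

The point is `mapDomain_eq_of_nsmul_mem_principal`: two place reductions induce the same map on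
every divisor whose class is torsion (the difference kills principal divisors and the divisor
group of the special fibre is torsion free).  So the place reduction `h.choose` hidden in
`reductionModL` may be replaced by any constructed one.  No divisibility of `Pic⁰` is needed.
-/

set_option autoImplicit false
set_option synthInstance.maxHeartbeats 400000

noncomputable section

open HahnSeries IntermediateField AlgebraicCurve ModularCurve

namespace Fermat.Agent.S18

section Forced

variable {L : Type*} [Field L] [Algebra ℚ L] {A : ValuationSubring L}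
variable {k : Type*} [Field k] {π : A →+* k} {N : ℕ}

/-- The divisor identity of `IsPlaceReductionAlong`, without the degree condition. -/
def DivisorIdentity (A : ValuationSubring L) (π : A →+* k) (N : ℕ)
    (r : Place L (laurentBaseChange L (modularFunctionFieldFull N)) →
      Place k (modularFunctionFieldFullC k N)) : Prop :=
  ∀ (y : LaurentSeries A)
    (hy : coeffMap A.subtype y ∈ laurentBaseChange L (modularFunctionFieldFull N))
    (hyk : coeffMap π y ∈ modularFunctionFieldFullC k N),
    coeffMap π y ≠ 0 →
      ∀ D : Divisor L (laurentBaseChange L (modularFunctionFieldFull N)),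
        (∀ P, D P = P.ord (⟨coeffMap A.subtype y, hy⟩ :
          laurentBaseChange L (modularFunctionFieldFull N))) →
          ∀ Q, Finsupp.mapDomain r D Q = Q.ord (⟨coeffMap π y, hyk⟩ : modularFunctionFieldFullC k N)

theorem divisorIdentity_of_isPlaceReductionAlong
    {r : Place L (laurentBaseChange L (modularFunctionFieldFull N)) →
      Place k (modularFunctionFieldFullC k N)}
    (hr : IsPlaceReductionAlong A π N r) : DivisorIdentity A π N r := hr.2

/-- Two maps on places with the divisor identity agree on integral principal divisors. -/
theorem mapDomain_eq_of_mem_integral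
    {r₁ r₂ : Place L (laurentBaseChange L (modularFunctionFieldFull N)) →
      Place k (modularFunctionFieldFullC k N)}
    (h₁ : DivisorIdentity A π N r₁) (h₂ : DivisorIdentity A π N r₂)
    {D : Divisor L (laurentBaseChange L (modularFunctionFieldFull N))}
    (hD : D ∈ integralPrincipalDivisors A π N) :
    Finsupp.mapDomain r₁ D = Finsupp.mapDomain r₂ D := by
  obtain ⟨y, hy, hyk, hne, hDy⟩ := hD
  ext Q
  rw [h₁ y hy hyk hne D hDy Q, h₂ y hy hyk hne D hDy Q]

/-- Two maps on places with the divisor identity agree on all principal divisors. -/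
theorem mapDomain_eq_of_mem_principal
    {r₁ r₂ : Place L (laurentBaseChange L (modularFunctionFieldFull N)) →
      Place k (modularFunctionFieldFullC k N)}
    (h₁ : DivisorIdentity A π N r₁) (h₂ : DivisorIdentity A π N r₂)
    (hgen : PrincipalGeneratedByIntegral A π N)
    {D : Divisor L (laurentBaseChange L (modularFunctionFieldFull N))}
    (hD : D ∈ Divisor.principal (K := L) (F := laurentBaseChange L (modularFunctionFieldFull N))) :
    Finsupp.mapDomain r₁ D = Finsupp.mapDomain r₂ D := by
  have hD' := hgen hD
  clear hD
  induction hD' using AddSubgroup.closure_induction with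
  | mem E hE => exact mapDomain_eq_of_mem_integral h₁ h₂ hE
  | zero => rw [Finsupp.mapDomain_zero, Finsupp.mapDomain_zero]
  | add E E' _ _ hE hE' => rw [Finsupp.mapDomain_add, Finsupp.mapDomain_add, hE, hE']
  | neg E _ hE =>
    rw [← Finsupp.mapDomain.addMonoidHom_apply, ← Finsupp.mapDomain.addMonoidHom_apply, map_neg,
      map_neg, Finsupp.mapDomain.addMonoidHom_apply, Finsupp.mapDomain.addMonoidHom_apply, hE]

/-- **Place reductions are forced on torsion classes**: two maps on places with the divisor
identity agree on every divisor `D` some non-zero multiple of which is principal. -/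
theorem mapDomain_eq_of_nsmul_mem_principal
    {r₁ r₂ : Place L (laurentBaseChange L (modularFunctionFieldFull N)) →
      Place k (modularFunctionFieldFullC k N)}
    (h₁ : DivisorIdentity A π N r₁) (h₂ : DivisorIdentity A π N r₂)
    (hgen : PrincipalGeneratedByIntegral A π N)
    {D : Divisor L (laurentBaseChange L (modularFunctionFieldFull N))} {m : ℕ} (hm : m ≠ 0)
    (hD : m • D ∈
      Divisor.principal (K := L) (F := laurentBaseChange L (modularFunctionFieldFull N))) :
    Finsupp.mapDomain r₁ D = Finsupp.mapDomain r₂ D := by
  have h := mapDomain_eq_of_mem_principal h₁ h₂ hgen hD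
  rw [← Finsupp.mapDomain.addMonoidHom_apply, ← Finsupp.mapDomain.addMonoidHom_apply, map_nsmul,
    map_nsmul, Finsupp.mapDomain.addMonoidHom_apply, Finsupp.mapDomain.addMonoidHom_apply] at h
  ext Q
  have hQ := DFunLike.congr_fun h Q
  rw [Finsupp.smul_apply, Finsupp.smul_apply, nsmul_eq_mul, nsmul_eq_mul] at hQ
  exact mul_left_cancel₀ (by exact_mod_cast hm) hQ

end Forced

/-- **TI** (torsion injectivity, divisor form), for one level `N`, prime `ℓ` and valuation ring
`A` of `ℚ̄` over `ℓ`: there is a map `r₀` on places with the divisor identity such that a divisor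
`D` of degree `0` with `m D` principal (`ℓ ∤ m`) and `r₀_* D` principal is principal.
The inputs `ReductionInputsModL A N` may be used by the prover. -/
def Stmt_TI (N : ℕ) (ℓ : ℕ) (A : ValuationSubring (AlgebraicClosure ℚ)) : Prop :=
  ReductionInputsModL A N →
  ∃ r₀ : Place (AlgebraicClosure ℚ) (modularFunctionFieldBar N) →
      Place (IsLocalRing.ResidueField A) (modularFunctionFieldFullC (IsLocalRing.ResidueField A) N),
    DivisorIdentity A (IsLocalRing.residue A) N r₀ ∧
    ∀ (D : Divisor (AlgebraicClosure ℚ) (modularFunctionFieldBar N)) (m : ℕ), ¬ ℓ ∣ m →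
      Divisor.degree D = 0 →
      m • D ∈ Divisor.principal (K := AlgebraicClosure ℚ) (F := modularFunctionFieldBar N) →
      Finsupp.mapDomain r₀ D ∈ Divisor.principal (K := IsLocalRing.ResidueField A)
        (F := modularFunctionFieldFullC (IsLocalRing.ResidueField A) N) →
      D ∈ Divisor.principal (K := AlgebraicClosure ℚ) (F := modularFunctionFieldBar N)

/-- **S18 from TI** (the frozen statement of S18 with `Stmt_TI` as an extra hypothesis). -/
theorem s18_of_TI (N : ℕ) [NeZero N] {ℓ : ℕ} [Fact ℓ.Prime] (_hℓN : ¬ ℓ ∣ N)
    (A : ValuationSubring (AlgebraicClosure ℚ)) (_hA : A.LiesOverPrime ℓ)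
    (hTI : Stmt_TI N ℓ A)
    (h : ModularCurve.ReductionInputsModL A N) (m : ℕ) (hm : ¬ ℓ ∣ m) (z : ModularCurve.JZero N)
    (hmz : m • z = 0) (hz : ModularCurve.reductionModL A N z = 0) :
    z = 0 := by
  obtain ⟨r₀, hr₀, hinj⟩ := hTI h
  obtain ⟨D, rfl⟩ := Pic0.mk_surjective z
  have hm0 : m ≠ 0 := by
    rintro rfl
    exact hm (dvd_zero ℓ)
  -- `m D` is principal
  have hmD : m • (D : Divisor (AlgebraicClosure ℚ) (modularFunctionFieldBar N)) ∈
      Divisor.principal (K := AlgebraicClosure ℚ) (F := modularFunctionFieldBar N) := by
    have h1 : ((m • D : Divisor.degZero (K := AlgebraicClosure ℚ)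
        (F := modularFunctionFieldBar N)) : Pic0 (AlgebraicClosure ℚ) (modularFunctionFieldBar N))
        = 0 := hmz
    rw [QuotientAddGroup.eq_zero_iff, AddSubgroup.mem_addSubgroupOf] at h1
    exact h1
  -- the reduction of `D` along the hidden place reduction is principal
  have hrD : Finsupp.mapDomain (placeReductionModL h)
      (D : Divisor (AlgebraicClosure ℚ) (modularFunctionFieldBar N)) ∈
      Divisor.principal (K := IsLocalRing.ResidueField A)
        (F := modularFunctionFieldFullC (IsLocalRing.ResidueField A) N) := by
    rw [reductionModL_mk h D] at hz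
    have h1 := (QuotientAddGroup.eq_zero_iff _).mp hz
    rw [AddSubgroup.mem_addSubgroupOf] at h1
    exact h1
  -- replace the hidden place reduction by `r₀`
  have hforced := mapDomain_eq_of_nsmul_mem_principal
    (divisorIdentity_of_isPlaceReductionAlong (isPlaceReductionModL_placeReductionModL h)) hr₀
    h.choose_spec.2 hm0 hmD
  rw [hforced] at hrD
  have hD := hinj D m hm (Divisor.mem_degZero.mp D.2) hmD hrD
  exact (QuotientAddGroup.eq_zero_iff _).mpr (AddSubgroup.mem_addSubgroupOf.mpr hD)

end Fermat.Agent.S18
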